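/-
T1B / F8 HECKE-N, slice S1b DLOG-HECKE-ALG (helper7; design = report 917 by helper3, "q-dlog").

Pure Laurent-series algebra over a field `k` (any characteristic):

* `theta_twistU`     : `θ (g(uq)) = (θ g)(uq)`                         (over any commutative ring);
* `Uop ℓ`            : `(U_ℓ g)_n = g_{ℓ n}`; `sum_twistU` : `∑_{b<ℓ} g(ζ^b q) = ℓ • V_ℓ (U_ℓ g)`
                       (orthogonality of the `ℓ`-th roots of unity); `qExpand_sq`;
* `dlog g = θ g / g` : `dlog_mul`, `dlog_prod`, `dlog_inv`, `dlog_pow`, `dlog_C_mul`, `dlog_twistU`,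
                       `dlog_qExpand`, `dlog_pow_char`;
* `dlog_eq_of_T`, `dlog_eq_of_U` : THE TWO HECKE FORMULAS: from the product formula for the norm
  `n(q^ℓ) = ∏_{b<ℓ} f(ζ^b q) · f(q^{ℓ²})` (resp. without the last factor):
  `dlog n = heckeT2 ℓ (dlog f) = U_ℓ (dlog f) + ℓ • V_ℓ (dlog f)` (resp. `= U_ℓ (dlog f)`);
* `theta_eq_zero_iff`, `theta_eq_zero_iff_pow` : in characteristic `p`, `θ g = 0 ↔ g = h(q^p)`
  (`↔ g = h^p` over a perfect field);
* `heckeT2 ℓ g = U_ℓ g + ℓ • V_ℓ g` : the weight-2 `T_ℓ` on `q`-expansions; `heckeT2_coeff`, and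
  `heckeT2_coeff_eq_coeffHeckeT` : over `ℂ` its coefficients are the Prelude's
  `ModularForm.coeffHeckeT 2 ℓ` of the coefficients (`Uop_coeff_eq_coeffHeckeU` for `U_ℓ`).
-/
import Mathlib
import Fermat.Agent.IG.PR.Theta20
import Fermat.Agent.IG.PR.ThetaV1
import Fermat.Agent.ES.KRON.KronCong24
import Fermat.Prelude.Def_ModularForm_HeckeOperator

set_option autoImplicit false

noncomputable section

open HahnSeries ModularCurve
open Fermat.Agent.IG.PR.Theta20 Fermat.Agent.IG.PR.ThetaV1 Fermat.Agent.ES.KRON.KronCong24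

namespace Fermat.Agent.T1B.Hecke7

/-! ### Over a commutative ring -/

section Ring

variable {R : Type*} [CommRing R]

/-- `θ` commutes with the twists `q ↦ u q`. -/
theorem theta_twistU (u : Rˣ) (g : LaurentSeries R) :
    theta (twistU u g) = twistU u (theta g) := by
  ext n
  rw [theta_coeff, twistU_coeff, twistU_coeff, theta_coeff]
  ring

/-- `(n : R((q))) * x = (n : R) • x`. -/
theorem natCast_mul_eq_smul (n : ℕ) (x : LaurentSeries R) :
    (n : LaurentSeries R) * x = (n : R) • x := by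
  have hN : (n : LaurentSeries R) = HahnSeries.C (n : R) := by simp
  rw [hN, HahnSeries.C_mul_eq_smul]

theorem Uop_bddBelow (ℓ : ℕ) [NeZero ℓ] (g : LaurentSeries R) :
    BddBelow (Function.support fun n : ℤ => g.coeff ((ℓ : ℤ) * n)) := by
  refine ⟨min g.order 0, fun m hm => ?_⟩
  by_contra hlt
  rw [not_le] at hlt
  apply hm
  show g.coeff ((ℓ : ℤ) * m) = 0
  apply HahnSeries.coeff_eq_zero_of_lt_order
  have h1 : m < g.order := lt_of_lt_of_le hlt (min_le_left _ _)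
  have h2 : m < 0 := lt_of_lt_of_le hlt (min_le_right _ _)
  have hℓ : (1 : ℤ) ≤ ℓ := by exact_mod_cast Nat.one_le_iff_ne_zero.mpr (NeZero.ne ℓ)
  nlinarith

/-- The operator `U_ℓ` on `q`-expansions: `(U_ℓ g)_n = g_{ℓ n}`. -/
def Uop (ℓ : ℕ) [NeZero ℓ] : LaurentSeries R →+ LaurentSeries R where
  toFun g := HahnSeries.ofSuppBddBelow (fun n : ℤ => g.coeff ((ℓ : ℤ) * n)) (Uop_bddBelow ℓ g)
  map_zero' := by
    ext n
    simp
  map_add' f g := by
    ext n
    simp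

@[simp]
theorem Uop_coeff (ℓ : ℕ) [NeZero ℓ] (g : LaurentSeries R) (n : ℤ) :
    (Uop ℓ g).coeff n = g.coeff ((ℓ : ℤ) * n) := rfl

/-- `U_ℓ ∘ V_ℓ = id`. -/
theorem Uop_qExpand (ℓ : ℕ) [NeZero ℓ] (g : LaurentSeries R) : Uop ℓ (qExpand R ℓ g) = g := by
  ext n
  rw [Uop_coeff, qExpand_coeff_mul]

/-- `U_ℓ` commutes with `θ` up to the factor `ℓ`: `θ (U_ℓ g) ... ` in the form
`ℓ • θ (U_ℓ g) = U_ℓ (θ g)`. -/
theorem Uop_theta (ℓ : ℕ) [NeZero ℓ] (g : LaurentSeries R) :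
    Uop ℓ (theta g) = (ℓ : R) • theta (Uop ℓ g) := by
  ext n
  rw [Uop_coeff, theta_coeff, HahnSeries.coeff_smul, theta_coeff, Uop_coeff, smul_eq_mul]
  push_cast
  ring

/-- `V_{ℓ²} = V_ℓ ∘ V_ℓ`. -/
theorem qExpand_sq (ℓ : ℕ) [NeZero ℓ] (g : LaurentSeries R) :
    qExpand R (ℓ ^ 2) g = qExpand R ℓ (qExpand R ℓ g) := by
  rw [qExpand_qExpand]
  exact qExpand_congr (pow_two ℓ) g

/-- A series all of whose coefficients of index prime to... more precisely: if `g_n = 0` whenever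
`ℓ ∤ n` then `g = V_ℓ (U_ℓ g)`. -/
theorem eq_qExpand_Uop (ℓ : ℕ) [NeZero ℓ] (g : LaurentSeries R)
    (h : ∀ n : ℤ, ¬ (ℓ : ℤ) ∣ n → g.coeff n = 0) : g = qExpand R ℓ (Uop ℓ g) := by
  ext n
  by_cases hn : (ℓ : ℤ) ∣ n
  · obtain ⟨m, rfl⟩ := hn
    rw [qExpand_coeff_mul, Uop_coeff]
  · rw [qExpand_coeff_of_not_dvd ℓ _ hn, h n hn]

/-- The weight-2 Hecke operator `T_ℓ = U_ℓ + ℓ V_ℓ` on `q`-expansions. -/
def heckeT2 (ℓ : ℕ) [NeZero ℓ] (g : LaurentSeries R) : LaurentSeries R :=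
  Uop ℓ g + (ℓ : R) • qExpand R ℓ g

theorem heckeT2_coeff (ℓ : ℕ) [NeZero ℓ] (g : LaurentSeries R) (n : ℤ) :
    (heckeT2 ℓ g).coeff n =
      g.coeff ((ℓ : ℤ) * n) + if (ℓ : ℤ) ∣ n then (ℓ : R) * g.coeff (n / ℓ) else 0 := by
  rw [heckeT2, HahnSeries.coeff_add, Uop_coeff, HahnSeries.coeff_smul, smul_eq_mul]
  split_ifs with hn
  · obtain ⟨m, rfl⟩ := hn
    have hℓ : (ℓ : ℤ) ≠ 0 := by exact_mod_cast NeZero.ne ℓ
    rw [qExpand_coeff_mul, Int.mul_ediv_cancel_left _ hℓ]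
  · rw [qExpand_coeff_of_not_dvd ℓ _ hn, mul_zero]

end Ring

section Complex

/-- Over `ℂ`, the coefficients of `heckeT2 ℓ g` are the Prelude's `coeffHeckeT 2 ℓ` of those
of `g`. -/
theorem heckeT2_coeff_eq_coeffHeckeT (ℓ : ℕ) [NeZero ℓ] (g : LaurentSeries ℂ) (n : ℕ) :
    (heckeT2 ℓ g).coeff (n : ℤ) =
      ModularForm.coeffHeckeT 2 ℓ (fun m : ℕ => g.coeff (m : ℤ)) n := by
  rw [heckeT2_coeff, ModularForm.coeffHeckeT_apply]
  have h1 : ((ℓ : ℤ) * (n : ℤ)) = ((n * ℓ : ℕ) : ℤ) := by push_cast; ring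
  have h2 : ((n : ℤ) / (ℓ : ℤ)) = ((n / ℓ : ℕ) : ℤ) := by push_cast; rfl
  have h3 : ((ℓ : ℂ)) ^ ((2 : ℤ) - 1) = (ℓ : ℂ) := by norm_num
  rw [h1, h2, h3]
  congr 1
  by_cases hn : ℓ ∣ n
  · rw [if_pos hn, if_pos (Int.natCast_dvd_natCast.2 hn)]
  · rw [if_neg hn, if_neg (fun h => hn (Int.natCast_dvd_natCast.1 h))]

/-- Over `ℂ`, the coefficients of `U_ℓ g` are the Prelude's `coeffHeckeU ℓ` of those of `g`. -/
theorem Uop_coeff_eq_coeffHeckeU (ℓ : ℕ) [NeZero ℓ] (g : LaurentSeries ℂ) (n : ℕ) :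
    (Uop ℓ g).coeff (n : ℤ) = ModularForm.coeffHeckeU ℓ (fun m : ℕ => g.coeff (m : ℤ)) n := by
  rw [Uop_coeff, ModularForm.coeffHeckeU_apply]
  have h1 : ((ℓ : ℤ) * (n : ℤ)) = ((n * ℓ : ℕ) : ℤ) := by push_cast; ring
  rw [h1]

end Complex

/-! ### Orthogonality of roots of unity -/

section Field

variable {k : Type*} [Field k]

theorem sum_zpow_of_isPrimitiveRoot (ℓ : ℕ) [NeZero ℓ] (ζ : kˣ) (hζ : IsPrimitiveRoot ζ ℓ)
    (n : ℤ) :
    ∑ b ∈ Finset.range ℓ, (((ζ ^ b) ^ n : kˣ) : k) = if (ℓ : ℤ) ∣ n then (ℓ : k) else 0 := by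
  have hcomm : ∀ b : ℕ, (((ζ ^ b) ^ n : kˣ) : k) = ((ζ ^ n : kˣ) : k) ^ b := by
    intro b
    rw [← Units.val_pow_eq_pow_val, ← zpow_natCast ζ b, ← zpow_mul, mul_comm, zpow_mul,
      zpow_natCast]
  simp only [hcomm]
  split_ifs with hn
  · have h1 : ζ ^ n = 1 := (hζ.zpow_eq_one_iff_dvd n).2 hn
    rw [h1]
    simp
  · have h1 : ζ ^ n ≠ 1 := fun h => hn ((hζ.zpow_eq_one_iff_dvd n).1 h)
    have h2 : ((ζ ^ n : kˣ) : k) ≠ 1 := fun h => h1 (Units.ext h)
    have h3 : ((ζ ^ n : kˣ) : k) ^ ℓ = 1 := by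
      rw [← Units.val_pow_eq_pow_val, ← zpow_natCast (ζ ^ n) ℓ, ← zpow_mul, mul_comm, zpow_mul,
        zpow_natCast, hζ.pow_eq_one, one_zpow, Units.val_one]
    have h4 := geom_sum_mul ((ζ ^ n : kˣ) : k) ℓ
    rw [h3, sub_self] at h4
    rcases mul_eq_zero.1 h4 with h | h
    · exact h
    · exact absurd (sub_eq_zero.1 h) h2

/-- **Orthogonality**: `∑_{b<ℓ} g(ζ^b q) = ℓ • V_ℓ (U_ℓ g)`. -/
theorem sum_twistU (ℓ : ℕ) [NeZero ℓ] (ζ : kˣ) (hζ : IsPrimitiveRoot ζ ℓ) (g : LaurentSeries k) :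
    ∑ b ∈ Finset.range ℓ, twistU (ζ ^ b) g = (ℓ : k) • qExpand k ℓ (Uop ℓ g) := by
  ext n
  rw [HahnSeries.coeff_sum, HahnSeries.coeff_smul, smul_eq_mul]
  simp only [twistU_coeff]
  rw [← Finset.sum_mul, sum_zpow_of_isPrimitiveRoot ℓ ζ hζ n]
  split_ifs with hn
  · obtain ⟨m, rfl⟩ := hn
    rw [qExpand_coeff_mul, Uop_coeff]
  · rw [qExpand_coeff_of_not_dvd ℓ _ hn, zero_mul, mul_zero]

/-! ### The logarithmic derivative -/

/-- `dlog g = θ g / g` (`= 0` for `g = 0`). -/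
def dlog (g : LaurentSeries k) : LaurentSeries k := theta g * g⁻¹

theorem dlog_def (g : LaurentSeries k) : dlog g = theta g * g⁻¹ := rfl

@[simp]
theorem dlog_zero : dlog (0 : LaurentSeries k) = 0 := by
  rw [dlog_def, map_zero, zero_mul]

@[simp]
theorem dlog_one : dlog (1 : LaurentSeries k) = 0 := by
  rw [dlog_def, theta_one, zero_mul]

theorem dlog_mul {g h : LaurentSeries k} (hg : g ≠ 0) (hh : h ≠ 0) :
    dlog (g * h) = dlog g + dlog h := by
  rw [dlog_def, dlog_def, dlog_def, theta_mul, mul_inv]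
  field_simp

theorem dlog_prod {ι : Type*} (s : Finset ι) (f : ι → LaurentSeries k)
    (hf : ∀ i ∈ s, f i ≠ 0) : dlog (∏ i ∈ s, f i) = ∑ i ∈ s, dlog (f i) := by
  classical
  induction s using Finset.induction_on with
  | empty => simp
  | insert a s ha ih =>
    rw [Finset.prod_insert ha, Finset.sum_insert ha,
      dlog_mul (hf a (Finset.mem_insert_self a s))
        (Finset.prod_ne_zero_iff.2 fun i hi => hf i (Finset.mem_insert_of_mem hi)),
      ih fun i hi => hf i (Finset.mem_insert_of_mem hi)]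

theorem dlog_inv (g : LaurentSeries k) : dlog g⁻¹ = -dlog g := by
  by_cases hg : g = 0
  · rw [hg, inv_zero, dlog_zero, neg_zero]
  rw [dlog_def, dlog_def, theta_inv, inv_inv]
  field_simp

theorem dlog_pow (g : LaurentSeries k) (n : ℕ) : dlog (g ^ n) = n • dlog g := by
  by_cases hg : g = 0
  · rcases n with _ | n
    · simp
    · rw [hg, zero_pow (Nat.succ_ne_zero n), dlog_zero, smul_zero]
  induction n with
  | zero => simp
  | succ n ih => rw [pow_succ, dlog_mul (pow_ne_zero n hg) hg, ih, succ_nsmul]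

theorem dlog_div {g h : LaurentSeries k} (hg : g ≠ 0) (hh : h ≠ 0) :
    dlog (g / h) = dlog g - dlog h := by
  rw [div_eq_mul_inv, dlog_mul hg (inv_ne_zero hh), dlog_inv, sub_eq_add_neg]

theorem dlog_C (c : k) : dlog (HahnSeries.C c : LaurentSeries k) = 0 := by
  rw [dlog_def, theta_C, zero_mul]

theorem dlog_C_mul {c : k} (hc : c ≠ 0) (g : LaurentSeries k) :
    dlog (HahnSeries.C c * g) = dlog g := by
  by_cases hg : g = 0
  · rw [hg, mul_zero]
  have hC : (HahnSeries.C c : LaurentSeries k) ≠ 0 := by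
    intro h
    apply hc
    have := congrArg (fun x : LaurentSeries k => x.coeff 0) h
    simpa using this
  rw [dlog_mul hC hg, dlog_C, zero_add]

theorem dlog_smul {c : k} (hc : c ≠ 0) (g : LaurentSeries k) : dlog (c • g) = dlog g := by
  rw [← HahnSeries.C_mul_eq_smul, dlog_C_mul hc]

theorem dlog_twistU (u : kˣ) (g : LaurentSeries k) : dlog (twistU u g) = twistU u (dlog g) := by
  rw [dlog_def, dlog_def, theta_twistU, map_mul, map_inv₀]

/-- `dlog (g(q^m)) = m · (dlog g)(q^m)`, multiplicative form. -/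
theorem dlog_qExpand' (m : ℕ) [NeZero m] (g : LaurentSeries k) :
    dlog (qExpand k m g) = (m : LaurentSeries k) * qExpand k m (dlog g) := by
  rw [dlog_def, dlog_def, theta_qExpand, map_mul, map_inv₀, mul_assoc]

theorem dlog_qExpand (m : ℕ) [NeZero m] (g : LaurentSeries k) :
    dlog (qExpand k m g) = (m : k) • qExpand k m (dlog g) := by
  rw [dlog_qExpand', natCast_mul_eq_smul]

theorem natCast_laurent_ne_zero {m : ℕ} (hm : (m : k) ≠ 0) : (m : LaurentSeries k) ≠ 0 := by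
  intro h
  apply hm
  have hN : (m : LaurentSeries k) = HahnSeries.C (m : k) := by simp
  rw [hN] at h
  exact (map_eq_zero (HahnSeries.C : k →+* LaurentSeries k)).1 h

theorem dlog_pow_char (p : ℕ) [CharP k p] (g : LaurentSeries k) : dlog (g ^ p) = 0 := by
  rw [dlog_pow, ← Nat.cast_smul_eq_nsmul k, CharP.cast_eq_zero, zero_smul]

/-! ### The two Hecke formulas -/

section Hecke

variable (ℓ : ℕ) [NeZero ℓ] (hℓ : (ℓ : k) ≠ 0) (ζ : kˣ) (hζ : IsPrimitiveRoot ζ ℓ)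

include hζ in
/-- `dlog` of the product over the conjugates `f(ζ^b q)`. -/
theorem dlog_prod_twistU {f : LaurentSeries k} (hf : f ≠ 0) :
    dlog (∏ b ∈ Finset.range ℓ, twistU (ζ ^ b) f) = (ℓ : k) • qExpand k ℓ (Uop ℓ (dlog f)) := by
  rw [dlog_prod _ _ fun b _ => (map_ne_zero (twistU (ζ ^ b))).2 hf]
  simp only [dlog_twistU]
  exact sum_twistU ℓ ζ hζ (dlog f)

include hℓ hζ in
/-- **The `U_ℓ` formula** (`ℓ` dividing the level): if `n(q^ℓ) = ∏_{b<ℓ} f(ζ^b q)` then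
`dlog n = U_ℓ (dlog f)`. -/
theorem dlog_eq_of_U {n f : LaurentSeries k} (hf : f ≠ 0)
    (h : qExpand k ℓ n = ∏ b ∈ Finset.range ℓ, twistU (ζ ^ b) f) :
    dlog n = Uop ℓ (dlog f) := by
  have h1 := congrArg dlog h
  rw [dlog_qExpand', dlog_prod_twistU ℓ ζ hζ hf, ← natCast_mul_eq_smul] at h1
  exact qExpand_injective ℓ (mul_left_cancel₀ (natCast_laurent_ne_zero hℓ) h1)

include hℓ hζ in
/-- **The `T_ℓ` formula** (`ℓ` prime to the level, weight 2): if
`n(q^ℓ) = ∏_{b<ℓ} f(ζ^b q) · f(q^{ℓ²})` then `dlog n = U_ℓ (dlog f) + ℓ • V_ℓ (dlog f)`. -/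
theorem dlog_eq_of_T {n f : LaurentSeries k} (hf : f ≠ 0)
    (h : qExpand k ℓ n = (∏ b ∈ Finset.range ℓ, twistU (ζ ^ b) f) * qExpand k (ℓ ^ 2) f) :
    dlog n = heckeT2 ℓ (dlog f) := by
  unfold heckeT2
  have hprod : (∏ b ∈ Finset.range ℓ, twistU (ζ ^ b) f) ≠ 0 :=
    Finset.prod_ne_zero_iff.2 fun b _ => (map_ne_zero (twistU (ζ ^ b))).2 hf
  have hV : qExpand k (ℓ ^ 2) f ≠ 0 := (map_ne_zero (qExpand k (ℓ ^ 2))).2 hf
  have h1 := congrArg dlog h
  rw [dlog_qExpand', dlog_mul hprod hV, dlog_prod_twistU ℓ ζ hζ hf, ← natCast_mul_eq_smul,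
    qExpand_sq, dlog_qExpand', dlog_qExpand', ← mul_add, ← map_add] at h1
  rw [← natCast_mul_eq_smul]
  exact qExpand_injective ℓ (mul_left_cancel₀ (natCast_laurent_ne_zero hℓ) h1)

end Hecke

/-! ### The kernel of `θ` in characteristic `p` -/

section CharP

variable (p : ℕ) [NeZero p] [CharP k p]

/-- In characteristic `p`: `θ g = 0 ↔ g = h(q^p)`. -/
theorem theta_eq_zero_iff (g : LaurentSeries k) :
    theta g = 0 ↔ ∃ h : LaurentSeries k, g = qExpand k p h := by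
  constructor
  · intro hg
    refine ⟨Uop p g, eq_qExpand_Uop p g fun n hn => ?_⟩
    have h1 : (theta g).coeff n = 0 := by rw [hg]; rfl
    rw [theta_coeff] at h1
    rcases mul_eq_zero.1 h1 with h | h
    · exact absurd ((CharP.intCast_eq_zero_iff k p n).1 h) hn
    · exact h
  · rintro ⟨h, rfl⟩
    rw [theta_qExpand, natCast_mul_eq_smul, CharP.cast_eq_zero, zero_smul]

theorem theta_pow_char (g : LaurentSeries k) : theta (g ^ p) = 0 := by
  obtain ⟨n, hn⟩ : ∃ n, p = n + 1 := ⟨p - 1, (Nat.succ_pred_eq_of_ne_zero (NeZero.ne p)).symm⟩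
  have h0 : ((n + 1 : ℕ) : LaurentSeries k) = 0 := by
    rw [← hn]
    have hN : (p : LaurentSeries k) = HahnSeries.C (p : k) := by simp
    rw [hN, CharP.cast_eq_zero, map_zero]
  rw [hn, theta_pow, h0, zero_mul, zero_mul]

/-- Over a perfect field of characteristic `p`: `θ g = 0 ↔ g` is a `p`-th power. -/
theorem theta_eq_zero_iff_pow [hp : Fact p.Prime] [PerfectField k] (g : LaurentSeries k) :
    theta g = 0 ↔ ∃ h : LaurentSeries k, g = h ^ p := by
  have : ExpChar k p := ExpChar.prime hp.out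
  constructor
  · intro hg
    obtain ⟨h₀, rfl⟩ := (theta_eq_zero_iff p g).1 hg
    refine ⟨coeffMap ((frobeniusEquiv k p).symm : k →+* k) h₀, ?_⟩
    rw [pow_char p, coeffMap_coeffMap]
    have h1 : (frobenius k p).comp ((frobeniusEquiv k p).symm : k →+* k) = RingHom.id k := by
      ext a
      simp
    rw [h1, coeffMap_id]
  · rintro ⟨h, rfl⟩
    exact theta_pow_char p h

end CharP

end Field

end Fermat.Agent.T1B.Hecke7

end
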