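/-
T1B / F8 HECKE-N (helper7): **the two Hecke formulas for `dl A`** -- combination of helper3's
abstract `q`-dlog (`T1B/Hecke3/{Iface,DlAbs}`: `Normalisable A f`, `dl A f`) with the
Laurent-series algebra of `T1B/Hecke7/DlogAlg` (`Uop`, `heckeT2`, `sum_twistU`).

`A` a valuation subring of a field `K`, residue field `κ = Kap A`, `ℓ` a positive integer with
`(ℓ : κ) ≠ 0`, `ζ ∈ K` a primitive `ℓ`-th root of unity.  For normalisable `n f ∈ K((q))`:

* `dl_eq_of_U` : `n(q^ℓ) = ∏_{b<ℓ} f(ζ^b q)`              ⟹  `dl A n = U_ℓ (dl A f)`;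
* `dl_eq_of_T` : `n(q^ℓ) = ∏_{b<ℓ} f(ζ^b q) · f(q^{ℓ²})`   ⟹  `dl A n = heckeT2 ℓ (dl A f)`
                                                              `= U_ℓ (dl A f) + ℓ • V_ℓ (dl A f)`.

The hypotheses are exactly the product formulas `ES.KRON.ConjNorm11.qExpand_normAlong_alpha_beta`
(`ℓ ∤ N`) and helper21's `U2Prod21` (`ℓ ∣ N`), with `ζ : Kˣ`.

Auxiliary: `unitOfRoot` (a root of unity of `K` is a unit of `A`), `isPrimitiveRoot_unitBar`
(the reduction of a primitive `ℓ`-th root of unity is primitive when `ℓ` is invertible in `κ`),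
the versions `dl_eq_of_U_unit`, `dl_eq_of_T_unit` with `ζ : (↥A)ˣ`.
-/
import Mathlib
import Fermat.Agent.T1B.Hecke3.DlAbs
import Fermat.Agent.T1B.Hecke7.DlogAlg

set_option autoImplicit false

noncomputable section

open HahnSeries ModularCurve
open Fermat.Agent.IG.PR.Theta20 Fermat.Agent.ES.KRON.KronCong24

namespace Fermat.Agent.T1B.Hecke7

open Fermat.Agent.T1B

variable {K : Type*} [Field K] (A : ValuationSubring K)

/-! ### Roots of unity are units of `A` -/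

theorem valuation_eq_one_of_pow_eq_one {x : K} {n : ℕ} (hn : n ≠ 0) (h : x ^ n = 1) :
    A.valuation x = 1 := by
  have h1 : (A.valuation x) ^ n = 1 := by rw [← map_pow, h, map_one]
  exact (pow_eq_one_iff.1 h1).resolve_right hn

/-- A root of unity of `K`, as a unit of `A`. -/
def unitOfRoot {n : ℕ} (hn : n ≠ 0) (ζ : Kˣ) (h : ζ ^ n = 1) : (↥A)ˣ :=
  A.unitGroupMulEquiv ⟨ζ, (A.mem_unitGroup_iff ζ).2 (valuation_eq_one_of_pow_eq_one A hn (by
    have := congrArg (fun u : Kˣ => (u : K)) h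
    simpa using this))⟩

theorem unitK_unitOfRoot {n : ℕ} (hn : n ≠ 0) (ζ : Kˣ) (h : ζ ^ n = 1) :
    Hecke3.unitK (unitOfRoot A hn ζ h) = ζ := by
  apply Units.ext
  show ((unitOfRoot A hn ζ h : ↥A) : K) = (ζ : K)
  exact A.coe_unitGroupMulEquiv_apply _

/-! ### Reduction of primitive roots of unity -/

/-- The reduction of a primitive `ℓ`-th root of unity is primitive when `ℓ ≠ 0` in the residue
field. -/
theorem isPrimitiveRoot_unitBar {ℓ : ℕ} (u : (↥A)ˣ) (hu : IsPrimitiveRoot (Hecke3.unitK u) ℓ)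
    (hℓ : (ℓ : Hecke3.Kap A) ≠ 0) : IsPrimitiveRoot (Hecke3.unitBar u) ℓ := by
  have hℓ0 : ℓ ≠ 0 := by
    rintro rfl
    exact hℓ Nat.cast_zero
  obtain ⟨n, rfl⟩ : ∃ n, ℓ = n + 1 := ⟨ℓ - 1, (Nat.succ_pred_eq_of_ne_zero hℓ0).symm⟩
  -- primitive in the domain `↥A`
  have hK : IsPrimitiveRoot ((u : ↥A) : K) (n + 1) := by
    have := IsPrimitiveRoot.coe_units_iff.2 hu
    exact this
  have hA : IsPrimitiveRoot (u : ↥A) (n + 1) :=
    IsPrimitiveRoot.of_map_of_injective (f := A.subtype) hK Subtype.val_injective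
  have hprod := hA.prod_one_sub_pow_eq_order
  have hprod' := congrArg (IsLocalRing.residue ↥A) hprod
  rw [map_prod] at hprod'
  simp only [map_sub, map_one, map_pow, map_add, map_natCast] at hprod'
  have hne : ∏ k ∈ Finset.range n, (1 - (IsLocalRing.residue ↥A (u : ↥A)) ^ (k + 1)) ≠ 0 := by
    rw [hprod']
    have : ((n + 1 : ℕ) : Hecke3.Kap A) = (n : Hecke3.Kap A) + 1 := by push_cast; rfl
    rw [← this]
    exact hℓ
  rw [← IsPrimitiveRoot.coe_units_iff]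
  apply IsPrimitiveRoot.mk_of_lt _ (Nat.succ_pos n)
  · show (IsLocalRing.residue ↥A (u : ↥A)) ^ (n + 1) = 1
    rw [← map_pow, hA.pow_eq_one, map_one]
  · intro l hl0 hln
    show (IsLocalRing.residue ↥A (u : ↥A)) ^ l ≠ 1
    intro h1
    obtain ⟨k, rfl⟩ : ∃ k, l = k + 1 := ⟨l - 1, (Nat.succ_pred_eq_of_ne_zero hl0.ne').symm⟩
    have hk : k ∈ Finset.range n := Finset.mem_range.2 (by omega)
    exact hne (Finset.prod_eq_zero hk (by rw [h1, sub_self]))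

/-! ### The two Hecke formulas, `ζ` a unit of `A` -/

section Unit

variable (ℓ : ℕ) [NeZero ℓ] (hℓ : (ℓ : Hecke3.Kap A) ≠ 0) (ζ : (↥A)ˣ)
  (hζ : IsPrimitiveRoot (Hecke3.unitBar ζ) ℓ)

include hζ in
theorem dl_prod_twistU {f : LaurentSeries K} (hf : Hecke3.Normalisable A f) :
    Hecke3.Normalisable A (∏ b ∈ Finset.range ℓ, twistU (Hecke3.unitK ζ ^ b) f) ∧
      Hecke3.dl A (∏ b ∈ Finset.range ℓ, twistU (Hecke3.unitK ζ ^ b) f) =
        (ℓ : Hecke3.Kap A) • qExpand (Hecke3.Kap A) ℓ (Uop ℓ (Hecke3.dl A f)) := by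
  have hb : ∀ b : ℕ, Hecke3.unitK ζ ^ b = Hecke3.unitK (ζ ^ b) := fun b => (map_pow _ ζ b).symm
  have hb' : ∀ b : ℕ, Hecke3.unitBar (ζ ^ b) = Hecke3.unitBar ζ ^ b := fun b => map_pow _ ζ b
  have hN : ∀ b ∈ Finset.range ℓ, Hecke3.Normalisable A (twistU (Hecke3.unitK ζ ^ b) f) := by
    intro b _
    rw [hb]
    exact (Hecke3.dl_twistU (ζ ^ b) hf).1
  refine ⟨Hecke3.Normalisable.prod _ _ hN, ?_⟩
  rw [Hecke3.dl_prod _ _ hN, ← sum_twistU ℓ (Hecke3.unitBar ζ) hζ]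
  refine Finset.sum_congr rfl fun b _ => ?_
  rw [hb, (Hecke3.dl_twistU (ζ ^ b) hf).2, hb']

include hℓ hζ in
/-- **The `U_ℓ` formula for `dl A`**, `ζ` a unit of `A`. -/
theorem dl_eq_of_U_unit {n f : LaurentSeries K} (hn : Hecke3.Normalisable A n)
    (hf : Hecke3.Normalisable A f)
    (h : qExpand K ℓ n = ∏ b ∈ Finset.range ℓ, twistU (Hecke3.unitK ζ ^ b) f) :
    Hecke3.dl A n = Uop ℓ (Hecke3.dl A f) := by
  have h1 := congrArg (Hecke3.dl A) h
  rw [(Hecke3.dl_qExpand ℓ hn).2, (dl_prod_twistU A ℓ ζ hζ hf).2] at h1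
  exact qExpand_injective ℓ (smul_right_injective _ hℓ h1)

include hℓ hζ in
/-- **The `T_ℓ` formula for `dl A`** (weight 2), `ζ` a unit of `A`. -/
theorem dl_eq_of_T_unit {n f : LaurentSeries K} (hn : Hecke3.Normalisable A n)
    (hf : Hecke3.Normalisable A f)
    (h : qExpand K ℓ n =
      (∏ b ∈ Finset.range ℓ, twistU (Hecke3.unitK ζ ^ b) f) * qExpand K (ℓ ^ 2) f) :
    Hecke3.dl A n = heckeT2 ℓ (Hecke3.dl A f) := by
  have hV1 := Hecke3.dl_qExpand (A := A) ℓ hf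
  have hV2 := Hecke3.dl_qExpand (A := A) ℓ hV1.1
  have hP := dl_prod_twistU A ℓ ζ hζ hf
  have h1 := congrArg (Hecke3.dl A) h
  rw [qExpand_sq, (Hecke3.dl_qExpand ℓ hn).2, Hecke3.dl_mul hP.1 hV2.1, hP.2, hV2.2, hV1.2,
    ← smul_add] at h1
  have h2 := smul_right_injective _ hℓ h1
  rw [← map_add] at h2
  exact qExpand_injective ℓ h2

end Unit

/-! ### The two Hecke formulas, `ζ ∈ K` a primitive `ℓ`-th root of unity -/

section Root

variable (ℓ : ℕ) [NeZero ℓ] (hℓ : (ℓ : Hecke3.Kap A) ≠ 0) (ζ : Kˣ) (hζ : IsPrimitiveRoot ζ ℓ)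

include hℓ hζ in
/-- **The `U_ℓ` formula for `dl A`**: `n(q^ℓ) = ∏_{b<ℓ} f(ζ^b q)  ⟹  dl A n = U_ℓ (dl A f)`. -/
theorem dl_eq_of_U {n f : LaurentSeries K} (hn : Hecke3.Normalisable A n)
    (hf : Hecke3.Normalisable A f)
    (h : qExpand K ℓ n = ∏ b ∈ Finset.range ℓ, twistU (ζ ^ b) f) :
    Hecke3.dl A n = Uop ℓ (Hecke3.dl A f) := by
  have hu := unitK_unitOfRoot A (NeZero.ne ℓ) ζ hζ.pow_eq_one
  have hprim : IsPrimitiveRoot (Hecke3.unitBar (unitOfRoot A (NeZero.ne ℓ) ζ hζ.pow_eq_one)) ℓ :=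
    isPrimitiveRoot_unitBar A _ (by rw [hu]; exact hζ) hℓ
  exact dl_eq_of_U_unit A ℓ hℓ _ hprim hn hf (by rw [hu]; exact h)

include hℓ hζ in
/-- **The `T_ℓ` formula for `dl A`** (weight 2):
`n(q^ℓ) = ∏_{b<ℓ} f(ζ^b q) · f(q^{ℓ²})  ⟹  dl A n = U_ℓ (dl A f) + ℓ • V_ℓ (dl A f)`. -/
theorem dl_eq_of_T {n f : LaurentSeries K} (hn : Hecke3.Normalisable A n)
    (hf : Hecke3.Normalisable A f)
    (h : qExpand K ℓ n = (∏ b ∈ Finset.range ℓ, twistU (ζ ^ b) f) * qExpand K (ℓ ^ 2) f) :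
    Hecke3.dl A n = heckeT2 ℓ (Hecke3.dl A f) := by
  have hu := unitK_unitOfRoot A (NeZero.ne ℓ) ζ hζ.pow_eq_one
  have hprim : IsPrimitiveRoot (Hecke3.unitBar (unitOfRoot A (NeZero.ne ℓ) ζ hζ.pow_eq_one)) ℓ :=
    isPrimitiveRoot_unitBar A _ (by rw [hu]; exact hζ) hℓ
  exact dl_eq_of_T_unit A ℓ hℓ _ hprim hn hf (by rw [hu]; exact h)

include hℓ hζ in
/-- (B1) of helper3's msg 7068: a primitive `ℓ`-th root of unity of `K` is a unit of `A` whose
reduction is again primitive. -/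
theorem exists_unit_of_primitiveRoot :
    ∃ u : (↥A)ˣ, Hecke3.unitK u = ζ ∧ IsPrimitiveRoot (Hecke3.unitBar u) ℓ := by
  have hu := unitK_unitOfRoot A (NeZero.ne ℓ) ζ hζ.pow_eq_one
  exact ⟨_, hu, isPrimitiveRoot_unitBar A _ (by rw [hu]; exact hζ) hℓ⟩

/-- Alias of `dl_eq_of_T` ((B2) of helper3's msg 7068). -/
alias dl_of_prod_T := dl_eq_of_T

/-- Alias of `dl_eq_of_U` ((B3) of helper3's msg 7068). -/
alias dl_of_prod_U := dl_eq_of_U

end Root

end Fermat.Agent.T1B.Hecke7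

end
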